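/-
Programme MW (S17), block B (helper1): **weak Mordell–Weil for `J₀(N)` given divisibility**.

For a prime `p`, a level `N ≥ 1`, and under the hypothesis that every `G_ℚ`-fixed class of
`JZero N` is divisible by `p` in `JZero N` (block A), the group `J₀(N)(ℚ)/p J₀(N)(ℚ)` is finite.

Ingredients (all already in the library):
* `OpenStab12.hasLevel_pic0` : every class is fixed by an open subgroup of `G_ℚ`;
* `TorsionGalois12.sp` : at `ℓ ∤ N` a homomorphism out of `JZero N` which is inertia-invariant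
  and injective on prime-to-`ℓ` torsion (⇒ the Kummer cocycle is unramified outside `pN`);
* `H1FiniteCoh15.exists_field_forall_cocycle`, `finite_setOf_level` : all level-`S` cocycles with
  values in a finite `𝔽_p[G_ℚ]`-module are constant on the cosets of one open subgroup.
-/
import Mathlib
import Fermat.Agent.ES.GAL.OpenStab12
import Fermat.Agent.ES.TOP.TorsionGalois12
import Fermat.Agent.ES.KUM.FiniteTorsion15
import Fermat.Agent.PT.GLOB.H1FiniteCoh15
import Fermat.Agent.PT.BR.DualTwist7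

set_option autoImplicit false
set_option linter.unusedSectionVars false
set_option linter.style.haveILetI false

noncomputable section

open AlgebraicCurve ModularCurve groupCohomology

namespace Fermat.Agent.MW.B.WeakMW1

local notation "Qbar" => AlgebraicClosure ℚ
local notation "Γ" => (AlgebraicClosure ℚ ≃ₐ[ℚ] AlgebraicClosure ℚ)

/-! ### Abstract lemmas -/

/-- A map to a finite type whose fibres lie in single cosets of `P` bounds the quotient. -/
theorem finite_quotient_of_fibers {G β : Type*} [AddCommGroup G] [Finite β] (P : AddSubgroup G)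
    (f : G → β) (h : ∀ x x', f x = f x' → x - x' ∈ P) : Finite (G ⧸ P) := by
  classical
  haveI : Finite ↥(Set.range f) := Finite.of_injective (fun b => (b : β)) Subtype.val_injective
  refine Finite.of_surjective
    (fun b : ↥(Set.range f) => (QuotientAddGroup.mk (b.2.choose) : G ⧸ P)) ?_
  intro q
  obtain ⟨x, rfl⟩ := QuotientAddGroup.mk_surjective q
  refine ⟨⟨f x, x, rfl⟩, ?_⟩
  have hb : f (Exists.choose (⟨x, rfl⟩ : ∃ y, f y = f x)) = f x :=
    Exists.choose_spec (⟨x, rfl⟩ : ∃ y, f y = f x)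
  exact (QuotientAddGroup.eq_iff_sub_mem).2 (h _ _ hb)

/-- The stabiliser-type subgroup `H`, if it contains the fixing subgroup of a number field and all
inertia groups outside `S`, is the fixing subgroup of a field unramified outside `S`. -/
theorem exists_unramified_field (S : Finset Nat.Primes) (H : Subgroup Γ)
    (hopen : ∃ L : IntermediateField ℚ Qbar, FiniteDimensional ℚ L ∧ L.fixingSubgroup ≤ H)
    (hin : ∀ q : Nat.Primes, q ∉ S → ∀ A : ValuationSubring Qbar, A.LiesOverPrime (q : ℕ) →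
      A.inertiaSubgroupIn ℚ ≤ H) :
    ∃ F : IntermediateField ℚ Qbar, F.IsUnramifiedOutside S ∧ F.fixingSubgroup = H := by
  obtain ⟨L, hL, hLH⟩ := hopen
  haveI := hL
  have hHo : IsOpen (H : Set Γ) :=
    Subgroup.isOpen_mono hLH (IntermediateField.fixingSubgroup_isOpen L)
  refine ⟨Fermat.Agent.S14.Fields.Lf H, ⟨Fermat.Agent.S14.Fields.finiteDimensional_Lf H hHo, ?_⟩,
    Fermat.Agent.S14.Fields.fixingSubgroup_Lf H hHo⟩
  intro q hq A hA
  rw [Fermat.Agent.S14.Fields.fixingSubgroup_Lf H hHo]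
  exact hin q hq A hA


/-! ### The modular instance -/

variable (N : ℕ) [NeZero N] (p : ℕ) [hp : Fact p.Prime]

/-- the torsion subgroup `J₀(N)[p]`. -/
local notation "TorP" => Pic0.torsion Qbar (modularFunctionFieldBar N) p

theorem finite_torsion : Finite ↥(TorP) :=
  haveI : NeZero p := ⟨hp.out.ne_zero⟩
  Fermat.Agent.ES.KUM.FiniteTorsion15.finite_torsion_bar N p

/-- `J₀(N)[p]` as an `𝔽_p[G_ℚ]`-module. -/
abbrev Tp : Rep (ZMod p) Γ := Rep.of (JZero.torsionGaloisRep N p)

theorem mem_torsion_of_nsmul {x : JZero N} (hx : p • x = 0) : x ∈ TorP := by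
  rw [Pic0.mem_torsion, natCast_zsmul]
  exact hx

theorem nsmul_of_mem_torsion {x : JZero N} (hx : x ∈ TorP) : p • x = 0 := by
  rw [Pic0.mem_torsion, natCast_zsmul] at hx
  exact hx

/-- **(L2)** the Kummer classes are unramified at `q ∤ pN`. -/
theorem inertia_smul_eq_of_nsmul {q : ℕ} (hq : q.Prime) (hqN : ¬ q ∣ N) (hqp : q ≠ p)
    {A : ValuationSubring Qbar} (hA : A.LiesOverPrime q) {τ : Γ}
    (hτ : τ ∈ A.inertiaSubgroupIn ℚ) (y : JZero N) (hy : p • (τ • y - y) = 0) : τ • y = y := by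
  obtain ⟨G, _, Φ, h1, -, h3⟩ := Fermat.Agent.ES.TOP.TorsionGalois12.sp N q hq hqN A hA
  have hqp' : ¬ q ∣ p := fun h => hqp ((Nat.prime_dvd_prime_iff_eq hq hp.out).1 h)
  have h0 : τ • y - y = 0 :=
    h3 p (τ • y - y) hqp' hy (by rw [map_sub, h1 τ hτ y, sub_self])
  exact sub_eq_zero.1 h0

variable (S : Finset Nat.Primes)

/-- **(L1)+(L2)**: a class whose `p`-th multiple is rational is fixed by the fixing subgroup of a
field unramified outside `S ⊇ {p} ∪ primes(N)`. -/
theorem exists_field_stabilizer (hpS : ∀ q : Nat.Primes, (q : ℕ) = p → q ∈ S)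
    (hNS : ∀ q : Nat.Primes, (q : ℕ) ∣ N → q ∈ S) (y : JZero N)
    (hy : ∀ σ : Γ, σ • (p • y) = p • y) :
    ∃ F : IntermediateField ℚ Qbar, F.IsUnramifiedOutside S ∧
      F.fixingSubgroup = MulAction.stabilizer Γ y := by
  refine exists_unramified_field S (MulAction.stabilizer Γ y) ?_ ?_
  · obtain ⟨L, hL, H⟩ := Fermat.Agent.ES.GAL.OpenStab12.hasLevel_pic0 N y
    refine ⟨L, hL, fun σ hσ => ?_⟩
    rw [MulAction.mem_stabilizer_iff]
    exact H σ ((IntermediateField.mem_fixingSubgroup_iff _ _).1 hσ)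
  · intro q hq A hA τ hτ
    rw [MulAction.mem_stabilizer_iff]
    refine inertia_smul_eq_of_nsmul N p q.2 (fun h => hq (hNS q h)) (fun h => hq (hpS q h)) hA hτ y ?_
    have h1 : p • (τ • y) = p • y := by
      rw [← Fermat.Agent.ES.TOP.TorsionGalois12.smul_nsmul_comm τ p y]
      exact hy τ
    rw [nsmul_sub, h1, sub_self]


/-- a field unramified outside `S`, containing `ζ_p`, whose absolute Galois group acts trivially on
`J₀(N)[p]`. -/
theorem exists_field_triv (hpS : ∀ q : Nat.Primes, (q : ℕ) = p → q ∈ S)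
    (hNS : ∀ q : Nat.Primes, (q : ℕ) ∣ N → q ∈ S) :
    ∃ F₀ : IntermediateField ℚ Qbar, F₀.IsUnramifiedOutside S ∧
      Fermat.Agent.S14.Fields.zeta p ∈ F₀ ∧
      ∀ s ∈ F₀.fixingSubgroup, ∀ a : Tp N p, (Tp N p).ρ s a = a := by
  have hpS' : ExtCitation.pPrime p ∈ S := hpS _ rfl
  haveI : Finite ↥(TorP) := finite_torsion N p
  obtain ⟨FT, hFT, hfix⟩ := exists_unramified_field S (JZero.torsionGaloisRep N p).ker
    (by
      obtain ⟨L, hL, h⟩ :=
        Fermat.Agent.ES.GAL.OpenStab12.factorsThroughFiniteLevel_torsionGaloisRep N p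
      exact ⟨L, hL, fun σ hσ => MonoidHom.mem_ker.2
        (h σ ((IntermediateField.mem_fixingSubgroup_iff _ _).1 hσ))⟩)
    (by
      intro q hq A hA τ hτ
      rw [MonoidHom.mem_ker]
      refine LinearMap.ext fun x => Subtype.ext ?_
      rw [JZero.coe_torsionGaloisRep_apply]
      refine inertia_smul_eq_of_nsmul N p q.2 (fun h => hq (hNS q h)) (fun h => hq (hpS q h))
        hA hτ (x : JZero N) ?_
      have hx : p • (x : JZero N) = 0 := nsmul_of_mem_torsion N p x.2
      have h1 : p • (τ • (x : JZero N)) = 0 := by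
        rw [← Fermat.Agent.ES.TOP.TorsionGalois12.smul_nsmul_comm τ p (x : JZero N), hx,
          smul_zero]
      rw [nsmul_sub, h1, hx, sub_self])
  refine ⟨FT ⊔ Fermat.Agent.S14.Fields.Kz p,
    hFT.sup (Fermat.Agent.PT.BR.DualTwist7.isUnramifiedOutside_Kz p hpS'),
    (le_sup_right : Fermat.Agent.S14.Fields.Kz p ≤ _) (Fermat.Agent.S14.Fields.zeta_mem_Kz p),
    fun s hs a => ?_⟩
  have hs' : s ∈ (JZero.torsionGaloisRep N p).ker := by
    rw [← hfix]
    exact IntermediateField.fixingSubgroup_antitone le_sup_left hs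
  have h1 : JZero.torsionGaloisRep N p s = 1 := MonoidHom.mem_ker.1 hs'
  show JZero.torsionGaloisRep N p s a = a
  rw [h1]
  rfl


/-! ### The Kummer cocycle -/

/-- the Kummer cocycle `σ ↦ σ • y - y` of a class `y` with `p • y` rational. -/
def kum (y : JZero N) (hy : ∀ σ : Γ, σ • (p • y) = p • y) : Γ → Tp N p := fun σ =>
  (⟨σ • y - y, mem_torsion_of_nsmul N p (by
    have h1 : p • (σ • y) = p • y := by
      rw [← Fermat.Agent.ES.TOP.TorsionGalois12.smul_nsmul_comm σ p y]
      exact hy σ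
    rw [nsmul_sub, h1, sub_self])⟩ : ↥(TorP))

theorem coe_kum (y : JZero N) (hy : ∀ σ : Γ, σ • (p • y) = p • y) (σ : Γ) :
    ((kum N p y hy σ : ↥(TorP)) : JZero N) = σ • y - y := rfl

theorem kum_mem_cocycles (y : JZero N) (hy : ∀ σ : Γ, σ • (p • y) = p • y) :
    kum N p y hy ∈ cocycles₁ (Tp N p) := by
  rw [mem_cocycles₁_iff]
  intro g h
  refine Subtype.ext ?_
  show (g * h) • y - y = g • (h • y - y) + (g • y - y)
  rw [mul_smul, smul_sub]
  abel

theorem kum_isLevelConstantS (hpS : ∀ q : Nat.Primes, (q : ℕ) = p → q ∈ S)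
    (hNS : ∀ q : Nat.Primes, (q : ℕ) ∣ N → q ∈ S) (y : JZero N)
    (hy : ∀ σ : Γ, σ • (p • y) = p • y) :
    IsLevelConstantS₁ S (kum N p y hy) := by
  obtain ⟨F, hF, hfix⟩ := exists_field_stabilizer N p S hpS hNS y hy
  refine ⟨F, hF, fun g s hs => Subtype.ext ?_⟩
  have hsy : s • y = y := by
    rw [hfix] at hs
    exact MulAction.mem_stabilizer_iff.1 hs
  show (g * s) • y - y = g • y - y
  rw [mul_smul, hsy]


/-! ### Weak Mordell–Weil -/

/-- the primes dividing `p * N`. -/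
def badPrimes : Finset Nat.Primes :=
  (p * N).primeFactors.attach.image
    (fun q => (⟨q.1, Nat.prime_of_mem_primeFactors q.2⟩ : Nat.Primes))

theorem mem_badPrimes (q : Nat.Primes) (h : (q : ℕ) ∣ p * N) : q ∈ badPrimes N p := by
  have hq : (q : ℕ) ∈ (p * N).primeFactors :=
    Nat.mem_primeFactors.2 ⟨q.2, h, Nat.mul_ne_zero hp.out.ne_zero (NeZero.ne N)⟩
  exact Finset.mem_image.2 ⟨⟨(q : ℕ), hq⟩, Finset.mem_attach _ _, Subtype.ext rfl⟩

theorem mem_badPrimes_of_eq (q : Nat.Primes) (h : (q : ℕ) = p) : q ∈ badPrimes N p :=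
  mem_badPrimes N p q (h ▸ Dvd.intro _ rfl)

theorem mem_badPrimes_of_dvd (q : Nat.Primes) (h : (q : ℕ) ∣ N) : q ∈ badPrimes N p :=
  mem_badPrimes N p q (h.mul_left p)

/-- the rational points `J₀(N)(ℚ)`. -/
abbrev JQ : AddSubgroup (JZero N) := FixedPoints.addSubgroup Γ (JZero N)

theorem smul_eq_of_mem_JQ (x : ↥(JQ N)) (σ : Γ) : σ • (x : JZero N) = x := x.2 σ

/-- **Weak Mordell–Weil given divisibility**: `J₀(N)(ℚ) / p J₀(N)(ℚ)` is finite. -/
theorem finite_quotient
    (hdiv : ∀ x : JZero N, (∀ σ : Γ, σ • x = x) → ∃ y : JZero N, p • y = x) :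
    Finite (↥(JQ N) ⧸ (AddMonoidHom.range (nsmulAddMonoidHom (α := ↥(JQ N)) p))) := by
  classical
  set S := badPrimes N p with hS
  have hpS : ∀ q : Nat.Primes, (q : ℕ) = p → q ∈ S := mem_badPrimes_of_eq N p
  have hNS : ∀ q : Nat.Primes, (q : ℕ) ∣ N → q ∈ S := mem_badPrimes_of_dvd N p
  obtain ⟨F₀, hF₀, hζ, htriv⟩ := exists_field_triv N p S hpS hNS
  haveI := hF₀.1
  haveI : Finite (Tp N p) := finite_torsion N p
  haveI : FiniteDimensional (ZMod p) (Tp N p) := Module.Finite.of_finite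
  obtain ⟨F₁, -, hfin, hF₁⟩ :=
    Fermat.Agent.PT.GLOB.H1FiniteCoh15.exists_field_forall_cocycle S (Tp N p) F₀ hF₀
      (Fermat.Agent.S14.Fields.zeta_spec p) hζ htriv
  haveI := hfin
  haveI := Fermat.Agent.PT.GLOB.H1FiniteCoh15.finiteIndex_fixingSubgroup F₁
  have hfinset := Fermat.Agent.PT.GLOB.H1FiniteCoh15.finite_setOf_level (X := Tp N p)
    F₁.fixingSubgroup
  haveI : Finite {f : Γ → Tp N p | ∀ g, ∀ s ∈ F₁.fixingSubgroup, f (g * s) = f g} :=
    hfinset.to_subtype
  -- chosen `p`-th roots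
  have hrat : ∀ x : ↥(JQ N), ∀ σ : Γ, σ • (x : JZero N) = x := fun x σ => smul_eq_of_mem_JQ N x σ
  let yx : ↥(JQ N) → JZero N := fun x => (hdiv x (hrat x)).choose
  have hyx : ∀ x : ↥(JQ N), p • yx x = x := fun x => (hdiv x (hrat x)).choose_spec
  have hyx' : ∀ x : ↥(JQ N), ∀ σ : Γ, σ • (p • yx x) = p • yx x := fun x σ => by
    rw [hyx x]; exact hrat x σ
  let f : ↥(JQ N) → {f : Γ → Tp N p | ∀ g, ∀ s ∈ F₁.fixingSubgroup, f (g * s) = f g} := fun x =>
    ⟨kum N p (yx x) (hyx' x),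
      hF₁ ⟨kum N p (yx x) (hyx' x), kum_mem_cocycles N p (yx x) (hyx' x)⟩
        (kum_isLevelConstantS N p S hpS hNS (yx x) (hyx' x))⟩
  refine finite_quotient_of_fibers _ f ?_
  intro x x' hxx'
  have hfun : kum N p (yx x) (hyx' x) = kum N p (yx x') (hyx' x') := congrArg Subtype.val hxx'
  have hz : ∀ σ : Γ, σ • (yx x - yx x') = yx x - yx x' := by
    intro σ
    have h1 := congrArg (fun t : ↥(TorP) => (t : JZero N)) (congrFun hfun σ)
    simp only [coe_kum] at h1
    rw [smul_sub]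
    have : σ • yx x - σ • yx x' - (yx x - yx x') = (σ • yx x - yx x) - (σ • yx x' - yx x') := by
      abel
    rw [← sub_eq_zero, this, h1, sub_self]
  refine ⟨⟨yx x - yx x', hz⟩, ?_⟩
  refine Subtype.ext ?_
  show p • (yx x - yx x') = (x : JZero N) - x'
  rw [nsmul_sub, hyx x, hyx x']


/-- **Weak Mordell–Weil, coset-representative form** (the shape consumed by the descent lemma):
finitely many rational classes `r` such that every rational class is `r + p • z`, `z` rational. -/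
theorem exists_finset_reps
    (hdiv : ∀ x : JZero N, (∀ σ : Γ, σ • x = x) → ∃ y : JZero N, p • y = x) :
    ∃ R : Finset (JZero N), (∀ r ∈ R, ∀ σ : Γ, σ • r = r) ∧
      ∀ x : JZero N, (∀ σ : Γ, σ • x = x) →
        ∃ r ∈ R, ∃ z : JZero N, (∀ σ : Γ, σ • z = z) ∧ x = r + p • z := by
  classical
  haveI := finite_quotient N p hdiv
  let P : AddSubgroup ↥(JQ N) := AddMonoidHom.range (nsmulAddMonoidHom (α := ↥(JQ N)) p)
  haveI : Fintype (↥(JQ N) ⧸ P) := Fintype.ofFinite _
  refine ⟨Finset.univ.image (fun q : ↥(JQ N) ⧸ P => ((Quotient.out q : ↥(JQ N)) : JZero N)),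
    ?_, ?_⟩
  · intro r hr σ
    obtain ⟨q, -, rfl⟩ := Finset.mem_image.1 hr
    exact smul_eq_of_mem_JQ N (Quotient.out q) σ
  · intro x hx
    let x' : ↥(JQ N) := ⟨x, hx⟩
    let q : ↥(JQ N) ⧸ P := QuotientAddGroup.mk x'
    have hq : (QuotientAddGroup.mk (Quotient.out q) : ↥(JQ N) ⧸ P) = QuotientAddGroup.mk x' :=
      QuotientAddGroup.out_eq' q
    obtain ⟨z, hz⟩ := (QuotientAddGroup.eq.1 hq : -(Quotient.out q) + x' ∈ P)
    refine ⟨_, Finset.mem_image.2 ⟨q, Finset.mem_univ _, rfl⟩, (z : JZero N),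
      fun σ => smul_eq_of_mem_JQ N z σ, ?_⟩
    have h1 : (p • (z : JZero N)) = -((Quotient.out q : ↥(JQ N)) : JZero N) + x := by
      have := congrArg (fun t : ↥(JQ N) => (t : JZero N)) hz
      simpa using this
    rw [h1]
    abel

end Fermat.Agent.MW.B.WeakMW1
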